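import Fermat.Agent.GD.Bases.Defs
import Fermat.Agent.GD.Bases.LocalInv.Layer

/-!
# The class data of the cyclotomic invariant maps
-/

set_option autoImplicit false
set_option linter.unusedSectionVars false
set_option linter.style.haveILetI false

noncomputable section

namespace Fermat.Agent.GD

open Fermat.Agent.Galois (GQ)

local notation "ℚb" => AlgebraicClosure ℚ

theorem smooth_LD (v : Place) : (LD v).Smooth (Additive ℚbˣ) := by
  intro x
  haveI : Normal ℚ ℚb := IsGalois.to_normal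
  set E : IntermediateField ℚ ℚb :=
    IntermediateField.adjoin ℚ ({((x.toMul : ℚbˣ) : ℚb)} : Set ℚb)
  haveI : FiniteDimensional ℚ E :=
    IntermediateField.adjoin.finiteDimensional (Algebra.IsIntegral.isIntegral _)
  let K : IntermediateField ℚ ℚb := IntermediateField.normalClosure ℚ E ℚb
  haveI : FiniteDimensional ℚ K := normalClosure.is_finiteDimensional ℚ _ ℚb
  haveI : Normal ℚ K := normalClosure.normal ℚ _ ℚb
  have hKn : K.fixingSubgroup.Normal := by
    haveI : IsGalois ℚ K := ⟨⟩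
    infer_instance
  refine ⟨_, ⟨_, ⟨K, inferInstance, rfl, hKn⟩, rfl⟩, fun s hs => ?_⟩
  refine Additive.toMul.injective (Units.ext ?_)
  have hs' : (s : decomp v).1 ∈ K.fixingSubgroup := hs
  exact hs' ⟨_, IntermediateField.le_normalClosure E
    (IntermediateField.mem_adjoin_simple_self ℚ _)⟩

theorem cor₂_nsmul {L : LevelGroup} {C : Type*} [AddCommGroup C] [DistribMulAction L.G C]
    {H : Subgroup L.G} (hH : L.IsOpen H) (m : ℕ) (z : H × H → C) :
    L.cor₂ C H (m • z) = m • L.cor₂ C H z := by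
  have := hH.finite_quotient
  have := Fintype.ofFinite (L.G ⧸ H)
  funext ⟨g, g'⟩
  rw [Pi.smul_apply, cor₂_apply, cor₂_apply, Finset.smul_sum]
  exact Finset.sum_congr rfl fun s _ => smul_comm _ m _

variable {p : ℕ} [hp : Fact p.Prime]

theorem locInv_eq_of_isB2_sub (G : GlobalInv p) (v : Place)
    (z z' : (LD v).Z2 (Additive ℚbˣ)) (h : (LD v).IsB2 (Additive ℚbˣ) (z.1 - z'.1)) :
    locInv G v z = locInv G v z' := by
  rw [← sub_eq_zero, ← map_sub]
  exact locInv_d₁ G v (z - z') h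

theorem locInv_cor_inj (hp2 : p ≠ 2) (v : Place) (H : Subgroup (LD v).G) (hH : (LD v).IsOpen H)
    (z : H × H → Additive ℚbˣ) (hz : z ∈ ((LD v).sub H).Z2 (Additive ℚbˣ))
    (hpz : ((LD v).sub H).IsB2 (Additive ℚbˣ) (p • z))
    (hc : (LD v).cor₂ (Additive ℚbˣ) H z ∈ (LD v).Z2 (Additive ℚbˣ))
    (h0 : locInv (globalInv p hp2) v ⟨_, hc⟩ = 0) :
    ((LD v).sub H).IsB2 (Additive ℚbˣ) z := by
  cases v with
  | none => exact isB2_none_of_odd (hp.out.odd_of_ne_two hp2) H hz hpz
  | some q =>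
    set L := LD (some q) with hL
    haveI := hH.finite_quotient
    haveI : H.FiniteIndex := Subgroup.finiteIndex_of_finite_quotient
    have hI0 : H.index ≠ 0 := Subgroup.FiniteIndex.index_ne_zero (H := H)
    obtain ⟨k, u, hu, hI⟩ := Nat.exists_eq_pow_mul_and_not_dvd hI0 p hp.out.ne_one
    have hu' : u.Coprime p := (hp.out.coprime_iff_not_dvd.mpr hu).symm
    obtain ⟨y, hy1, hy2, -⟩ := exists_local_class hp2 q k
    have hC : L.Smooth (Additive ℚbˣ) := smooth_LD _
    let ζ : (L.sub H).Z2 (Additive ℚbˣ) :=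
      ⟨fun x : H × H => y.1 (x.1.1, x.2.1), res_mem_Z2 y.2⟩
    -- the restriction is killed by `p`
    have hpy : p • y.1 ∈ L.Z2 (Additive ℚbˣ) := AddSubgroup.nsmul_mem _ y.2 p
    have hζp : (L.sub H).IsB2 (Additive ℚbˣ) (p • ζ.1) := by
      refine local_h2_killed p (some q) ⊤ ⟨_, L.exists_level.choose_spec, le_top⟩
        ⟨_, res_mem_Z2 hpy⟩ k ?_ H le_top hH ?_
      · have h1 := IsB2.res (⊤ : Subgroup L.G) hy1
        rw [pow_succ, mul_smul] at h1
        exact h1
      · show p ^ k ∣ H.relIndex ⊤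
        rw [Subgroup.relIndex_top_right, hI]
        exact dvd_mul_right _ _
    -- its corestriction has nonzero invariant
    let c : L.Z2 (Additive ℚbˣ) := ⟨_, cor₂_mem_Z2 hH hC ζ.2⟩
    have hcy : locInv (globalInv p hp2) (some q) c = H.index • locInv (globalInv p hp2) (some q) y := by
      rw [← map_nsmul]
      exact locInv_eq_of_isB2_sub _ _ c _ (cor₂_res hH y.2)
    have hpc : p • locInv (globalInv p hp2) (some q) c = 0 := by
      rw [hcy, hI, smul_smul, show p * (p ^ k * u) = u * p ^ (k + 1) by ring, mul_smul,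
        ← map_nsmul]
      exact (congrArg (u • ·) (locInv_d₁ _ _ _ hy1)).trans (smul_zero u)
    have hc0 : locInv (globalInv p hp2) (some q) c ≠ 0 := fun hw => by
      rw [hcy, hI, mul_comm, mul_smul] at hw
      refine hy2 (eq_zero_of_nsmul_coprime hu' hw ?_)
      rw [smul_smul, ← pow_succ', ← map_nsmul]
      exact locInv_d₁ _ _ _ hy1
    have hζne : ¬ (L.sub H).IsB2 (Additive ℚbˣ) ζ.1 := fun h =>
      hc0 (locInv_d₁ _ _ _ (isB2_cor₂ hH h))
    obtain ⟨m, hm⟩ := local_h2_line p hp2 (some q) H hH ζ ⟨z, hz⟩ hζp hpz hζne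
    have hpm : p ∣ m := by
      by_contra hpm
      refine hc0 (eq_zero_of_nsmul_coprime
        ((hp.out.coprime_iff_not_dvd.mpr hpm).symm) ?_ hpc)
      have h1 := isB2_cor₂ hH hm
      rw [cor₂_sub hH] at h1
      have h2 : L.cor₂ (Additive ℚbˣ) H (m • ζ.1) = m • L.cor₂ (Additive ℚbˣ) H ζ.1 :=
        cor₂_nsmul hH m ζ.1
      rw [h2] at h1
      rw [← map_nsmul]
      exact (locInv_eq_of_isB2_sub _ _ ⟨_, hc⟩ (m • c) h1).symm.trans h0
    obtain ⟨m', rfl⟩ := hpm
    have := hm.add (hζp.nsmul m')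
    rwa [smul_smul, mul_comm m' p, sub_add_cancel] at this

theorem locInv_inj (hp2 : p ≠ 2) (v : Place) (z : (LD v).Z2 (Additive ℚbˣ))
    (hpz : (LD v).IsB2 (Additive ℚbˣ) (p • z.1)) (h0 : locInv (globalInv p hp2) v z = 0) :
    (LD v).IsB2 (Additive ℚbˣ) z.1 := by
  have hH : (LD v).IsOpen ⊤ := ⟨_, (LD v).exists_level.choose_spec, le_top⟩
  have hm := res_mem_Z2 (H := (⊤ : Subgroup (LD v).G)) z.2
  refine IsB2.ofTop (locInv_cor_inj hp2 v ⊤ hH _ hm (IsB2.res _ hpz)
    (cor₂_mem_Z2 hH (smooth_LD v) hm) ?_)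
  refine (locInv_eq_of_isB2_sub _ _ _ z ?_).trans h0
  have := cor₂_res hH z.2
  rwa [Subgroup.index_top, one_smul] at this

/-- The local class modules. -/
def locModule (hp2 : p ≠ 2) (v : Place) : ClassModule (LD v) (Additive ℚbˣ) p where
  smooth := smooth_LD v
  inv := locInv (globalInv p hp2) v
  inv_d₁ := locInv_d₁ _ v
  inv_inj := locInv_inj hp2 v
  h1 H hH f hf _ := local_h1 v H hH f hf
  inv_cor_inj H hH z hz hpz hc h0 := locInv_cor_inj hp2 v H hH z hz hpz hc h0

variable (p)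

/-- The class data. -/
def classData (hp2 : p ≠ 2) : ClassData p where
  toGlobalInv := globalInv p hp2
  loc := locModule hp2
  decomposition T hT z hz hzl hzI hu :=
    (gInv_eq_sum (globalInv p hp2) hT ⟨_, hzI⟩ hu).trans rfl

end Fermat.Agent.GD
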