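import Fermat.Agent.GD.Bases.DualityGlobal.LocTrivial
import Fermat.Agent.GD.Bases.DualityGlobal.Norm
import Fermat.Agent.GD.Bases.DualityGlobal.Kummer

/-!
# Global duality
-/

set_option autoImplicit false
set_option linter.unusedSectionVars false
set_option linter.style.haveILetI false

noncomputable section

namespace Fermat.Agent.GD

open Fermat.Agent.Galois (GQ)

local notation "ℚb" => AlgebraicClosure ℚ

variable {p : ℕ} [hp : Fact p.Prime] {T : Finset Nat.Primes}

/-- A class orthogonal to all homomorphisms into the classes is trivial. -/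
theorem detect_global (hp2 : p ≠ 2) (D : ClassData p) (hT : pPrime p ∈ T) {H N : Subgroup GQ}
    (hN : (LT T).IsLevel N) (hle : N ≤ H) (hH : (LT T).IsOpen H)
    (hμ : ∀ h ∈ H, ∀ μ : ℚbˣ, μ ^ p = 1 → h • μ = μ) (hbig : IsBig T N)
    [DistribMulAction ((LT T).sub H).G (ZMod p)]
    (htriv : ∀ (g : ((LT T).sub H).G) (m : ZMod p), g • m = m) (c : ((LT T).sub H).Z2 (ZMod p))
    (hc : ∀ φ : ZMod p →+ ClassT T, φ ∈ ((LT T).sub H).HomC (ZMod p) (ClassT T) →
      ∀ hz : φ ∘ c.1 ∈ ((LT T).sub H).Z2 (ClassT T),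
        ((D.glob T hT).sub H hH).inv ⟨_, hz⟩ = 0) :
    ((LT T).sub H).IsB2 (ZMod p) c.1 := by
  classical
  obtain ⟨a₀, ⟨_, ⟨Na, hNa, rfl⟩, haN₀⟩, had⟩ := muCochain_isB2 hN hle hμ htriv hp2 D hT hH c hc
  let a : H → Additive (idele T) := a₀
  have haN : ∀ g s : H, (s : GQ) ∈ (show Subgroup GQ from Na) → a (g * s) = a g :=
    fun g s hs => haN₀ g s hs
  have had' : ∀ g h : H, lt T (g : GQ) • a h - a (g * h) + a g = muIdele hN hle hμ (c.1 (g, h)) :=
    fun g h => congrFun had (g, h)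
  have hmu0 : ∀ b, classHom T (muIdele hN hle hμ b) = 0 := fun b =>
    classHom_sUnitIdele hN hle (muUnitHom hμ b)
  let f₁ : H → ClassT T := fun h => classHom T (a h)
  have hf₁ : f₁ ∈ ((LT T).sub H).Z1 (ClassT T) := by
    refine ⟨⟨_, ⟨Na, hNa, rfl⟩, fun g s hs => congrArg (classHom T) (haN g s hs)⟩, fun (g h : H) => ?_⟩
    have h1 := congrArg (classHom T) (had' g h)
    rw [hmu0, map_add, map_sub, classHom_smul] at h1
    show classHom T (a (g * h)) = classHom T (a g) + lt T (g : GQ) • classHom T (a h)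
    linear_combination (norm := abel) -h1
  obtain ⟨m, hm, cl, hcl⟩ := (D.glob T hT).toPreClassModule.exists_coprime_B1 hH hf₁
  obtain ⟨j₀, hj₀⟩ := mkClass_surjective T cl.toMul
  let j : Additive (idele T) := Additive.ofMul j₀
  have hj : classHom T j = cl := congrArg Additive.ofMul hj₀
  obtain ⟨Nj, hNj, hjN⟩ := smooth_idele T j
  let a' : H → Additive (idele T) := fun h => m • a h - (lt T (h : GQ) • j - j)
  have ha'0 : ∀ h, classHom T (a' h) = 0 := fun h => by
    have h1 : lt T (h : GQ) • cl - cl = m • classHom T (a h) := congrFun hcl h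
    show classHom T (m • a h - (lt T (h : GQ) • j - j)) = 0
    rw [map_sub, map_nsmul, map_sub, classHom_smul, hj, ← h1, sub_self]
  have ha'd : ∀ g h : H, lt T (g : GQ) • a' h - a' (g * h) + a' g =
      m • muIdele hN hle hμ (c.1 (g, h)) := fun g h => by
    rw [← had' g h]
    show lt T (g : GQ) • (m • a h - (lt T (h : GQ) • j - j)) -
      (m • a (g * h) - (lt T ((g : GQ) * (h : GQ)) • j - j)) + (m • a g - (lt T (g : GQ) • j - j)) = _
    rw [show lt T ((g : GQ) * (h : GQ)) • j = lt T (g : GQ) • lt T (h : GQ) • j from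
      mul_smul (lt T (g : GQ)) (lt T (h : GQ)) j, smul_sub, smul_sub, smul_comm (lt T (g : GQ)) m,
      nsmul_add, nsmul_sub]
    abel
  let X : H → Additive ℚbˣ := fun h => evalAt none 1 (a' h)
  have hXg : ∀ h (g : GQ), evalAt none g (a' h) = g • X h := fun h g =>
    (components_of_class_zero (ha'0 h)).1 none mem_placesOf_none g
  have hXd : ∀ g h : H, (g : GQ) • X h - X (g * h) + X g = m • toMu p (c.1 (g, h)) := fun g h => by
    have h1 := congrArg (evalAt none 1) (ha'd g h)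
    rw [map_add, map_sub, evalAt_lt, one_mul, hXg, map_nsmul, evalAt_muIdele, one_smul] at h1
    exact h1
  -- a common level
  have hM : (LT T).IsLevel (Na ⊓ Nj) := (LT T).inf _ _ hNa hNj
  let M : Subgroup GQ := Na ⊓ Nj
  have hXc : ∀ g s : H, (s : GQ) ∈ M → X (g * s) = X g := fun g s hs => by
    show evalAt none 1 (m • a (g * s) - (lt T ((g : GQ) * (s : GQ)) • j - j)) = _
    rw [haN g s hs.1, show lt T ((g : GQ) * (s : GQ)) • j = lt T (g : GQ) • lt T (s : GQ) • j from
      mul_smul (lt T (g : GQ)) (lt T (s : GQ)) j,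
      show lt T (s : GQ) • j = j from hjN _ hs.2]
  haveI : M.FiniteIndex := (LT T).finiteIndex _ hM
  haveI : Finite (H ⧸ M.subgroupOf H) := Subgroup.finite_quotient_of_finiteIndex
  obtain ⟨N₁, hN₁, hN₁X⟩ := exists_level_forall (T := T) (X := H ⧸ M.subgroupOf H)
    (P := fun N' q => ∀ s : GQ, s ∈ (show Subgroup GQ from N') → s • X q.out = X q.out)
    (fun _ _ _ hle' h s hs => h s (hle' hs))
    fun q => (components_of_class_zero (ha'0 q.out)).2.1
  have hN' : (LT T).IsLevel (N₁ ⊓ (Na ⊓ Nj) ⊓ (show Subgroup (LT T).G from N)) :=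
    (LT T).inf _ _ ((LT T).inf _ _ hN₁ hM) hN
  let N' : Subgroup GQ := (show Subgroup GQ from N₁) ⊓ M ⊓ N
  have hle' : N' ≤ H := fun s hs => hle hs.2
  have hXfix : ∀ h : H, ∀ s ∈ N', s • X h = X h := fun h s hs => by
    obtain ⟨k, hk⟩ := QuotientGroup.mk_out_eq_mul (M.subgroupOf H) h
    have h1 := hN₁X (h : H ⧸ M.subgroupOf H) s hs.1.1
    rwa [hk, hXc h k (Subgroup.mem_subgroupOf.mp k.2)] at h1
  have hμt : ∀ (g : H) b, (g : GQ) • toMu p b = toMu p b := fun g b =>
    congrArg Additive.ofMul (hμ _ g.2 _ (congrArg Additive.toMul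
      (show p • toMu p b = 0 by rw [← map_nsmul, nsmul_zmod, map_zero])))
  have hpμ : ∀ g h : H, p • (m • toMu p (c.1 (g, h))) = 0 := fun g h => by
    rw [← map_nsmul, ← map_nsmul, nsmul_zmod, map_zero]
  let x : H → ℚbˣ := fun h => (X h).toMul
  obtain ⟨y, hyfix, hy⟩ := exists_smul_div_eq_global (T := T) hN' hle' (fun h => x h ^ p)
    (fun g h => by
      have h1 := hpμ g h
      rw [← hXd g h, nsmul_add, nsmul_sub, smul_comm p (g : GQ)] at h1
      have h2 : p • X (g * h) = p • X g + (g : GQ) • (p • X h) := by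
        linear_combination (norm := abel) -h1
      exact congrArg Additive.toMul h2)
    (fun g s hs => congrArg (fun u : Additive ℚbˣ => u.toMul ^ p) (hXc g s hs.1.2))
  obtain ⟨z, ⟨Nz, hNz, hzfix⟩, hz⟩ := exists_root_coboundary (p := p) hT hN hle hbig hN' hle'
    (x := x) (fun h s hs => congrArg Additive.toMul (hXfix h s hs)) hyfix hy
  let Z : Additive ℚbˣ := Additive.ofMul z
  have hγ : ∀ h : H, ∃ b, toMu p b = X h - ((h : GQ) • Z - Z) := fun h => exists_toMu p (by
    rw [nsmul_sub, sub_eq_zero]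
    exact congrArg Additive.ofMul (hz h))
  choose γ hγ using hγ
  have hγd : ∀ g h : H, γ h - γ (g * h) + γ g = (m : ZMod p) * c.1 (g, h) := fun g h => by
    refine toMu_injective p ?_
    rw [← nsmul_eq_mul, map_nsmul, ← hXd g h, map_add, map_sub, ← hμt g (γ h), hγ, hγ, hγ,
      Subgroup.coe_mul, mul_smul, smul_sub, smul_sub]
    abel
  have hγc : ∀ g s : H, (s : GQ) ∈ N' ⊓ (show Subgroup GQ from Nz) → γ (g * s) = γ g := fun g s hs =>
    toMu_injective p (by
      rw [hγ, hγ, hXc g s hs.1.1.2, Subgroup.coe_mul, mul_smul,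
        show (s : GQ) • Z = Z from congrArg Additive.ofMul (hzfix _ hs.2)])
  have hm0 : (m : ZMod p) ≠ 0 := fun h => by
    rw [ZMod.natCast_eq_zero_iff] at h
    exact hp.out.ne_one (Nat.dvd_one.mp (hm ▸ Nat.dvd_gcd h dvd_rfl))
  refine ⟨fun h => (m : ZMod p)⁻¹ * γ h,
    ⟨_, ⟨_, (LT T).inf _ _ hN' hNz, rfl⟩, fun g s hs => congrArg _ (hγc g s hs)⟩,
    funext fun ⟨g, h⟩ => ?_⟩
  rw [LevelGroup.d₁_apply, htriv]
  show (m : ZMod p)⁻¹ * γ h - (m : ZMod p)⁻¹ * γ (g * h) + (m : ZMod p)⁻¹ * γ g = c.1 (g, h)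
  rw [← mul_sub, ← mul_add]
  exact (congrArg ((m : ZMod p)⁻¹ * ·) (hγd g h)).trans (inv_mul_cancel_left₀ hm0 _)

/-- The base case of global duality. -/
theorem base_global (hp2 : p ≠ 2) (D : ClassData p) (hT : pPrime p ∈ T)
    {H N : Subgroup GQ} (hN : (LT T).IsLevel N) (hle : N ≤ H) (hH : (LT T).IsOpen H)
    (hμ : ∀ h ∈ H, ∀ μ : ℚbˣ, μ ^ p = 1 → h • μ = μ) (hbig : IsBig T N)
    [DistribMulAction ((LT T).sub H).G (ZMod p)]
    (htriv : ∀ (g : ((LT T).sub H).G) (m : ZMod p), g • m = m) :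
    ((D.glob T hT).sub H hH).Base ((LT T).sub H) := by
  classical
  have hμF : FixesMu p H := fun h hh μ hμ1 => by
    have hμ0 : μ ≠ 0 := fun e => by
      rw [e, zero_pow hp.out.ne_zero] at hμ1
      exact zero_ne_one hμ1
    exact congrArg Units.val (hμ h hh (Units.mk0 μ hμ0) (Units.ext hμ1))
  letI : MulDistribMulAction ((LT T).sub H).G ℚbˣ := inferInstanceAs (MulDistribMulAction H ℚbˣ)
  obtain ⟨f, hf⟩ := exists_kummer (L := (LT T).sub H) (p := p) htriv (sUnits T H)
    (fun g x hx => hx.1 _ g.2) (fun g μ => hμ _ g.2 μ)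
    (fun z hz => by
      obtain ⟨N', hN', h'⟩ := exists_level_root hT hN (x := z ^ p)
        (fun s hs => hz.1 s (hle hs)) hz.2 rfl
      exact ⟨_, ⟨N', hN', rfl⟩, fun s hs => h' _ hs⟩)
    (fun z hz h => ⟨fun g hg => h ⟨g, hg⟩, fun q hq g =>
      isTUnit_of_pow (p := p) (x := Additive.ofMul z) (T := T) (fun q hq g => hz.2 q hq g) q hq g⟩)
  obtain ⟨hfin, hcount⟩ := card_fixedClasses_mod_le hp2 hT (show Subgroup (LT T).G from H)
    (show Subgroup (LT T).G from N) hN hle hμF hbig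
  exact ⟨htriv, finite_homC_triv htriv
      ((finite_classes_torsion hp2 (H := (show Subgroup (LT T).G from H))
        (N := (show Subgroup (LT T).G from N)) hN hle hμF hbig).subset
          fun c hc => ⟨hc.1, fun h hh => hc.2 ⟨h, hh⟩⟩),
    (D.glob T hT).duality_triv hH htriv (fun H' χ hχ => exists_not_norm_class hp2 hμF H' χ hχ) hfin
      (fun hX => hcount.trans (by
        rw [← card_sUnits_mod p T hp2 (show Subgroup (LT T).G from H) hH hμF]
        exact Nat.card_le_card_of_injective f hf)),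
    detect_global hp2 D hT hN hle hH hμ hbig htriv⟩

/-- Global duality. -/
theorem duality_global_eq (hp2 : p ≠ 2) (D : ClassData p) (hT : pPrime p ∈ T)
    (N : Subgroup (LT T).G) (hN : (LT T).IsLevel N) (hμ : FixesMu p N) (hbig : IsBig T N)
    (M : Type) [AddCommGroup M] [Finite M] [DistribMulAction (LT T).G M]
    (hpM : ∀ m : M, p • m = 0) (hMN : ∀ s ∈ N, ∀ m : M, s • m = m) (hM : (LT T).Smooth M) :
    (D.glob T hT).Duality (LT T) M hM := by
  refine (D.glob T hT).duality_of_base hN hpM hMN hM fun H hH hle hpow => ?_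
  letI := trivAction ((LT T).sub H).G (ZMod p)
  refine base_global hp2 D hT (N := N) (H := H) hN hle hH (fun h hh μ hμ1 => ?_) hbig fun _ _ => rfl
  obtain ⟨k, hk⟩ := hpow h hh
  exact fix_mu_of_pow (G := GQ) (fun ν hν => Units.ext
    (hμ _ hk (ν : ℚb) (by rw [← Units.val_pow_eq_pow_val, hν, Units.val_one]))) hμ1

end Fermat.Agent.GD
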