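import Fermat.Agent.GD.Engine.Trivial
import Fermat.Agent.GD.GW.Mu
import Fermat.Agent.GD.Local.Defs

/-!
# Descent to a Sylow subgroup and the Kummer count
-/

set_option autoImplicit false
set_option linter.unusedSectionVars false
set_option linter.style.haveILetI false

noncomputable section

namespace Fermat.Agent.GD

local notation "ℚb" => AlgebraicClosure ℚ

universe u v w

/-- The trivial action. -/
@[reducible]
def trivAction (G : Type*) [Monoid G] (A : Type*) [AddCommGroup A] : DistribMulAction G A where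
  smul _ a := a
  one_smul _ := rfl
  mul_smul _ _ _ := rfl
  smul_zero _ := rfl
  smul_add _ _ _ := rfl

variable {L : LevelGroup.{u}} {C : Type w} [AddCommGroup C] [DistribMulAction L.G C] {p : ℕ}
  [hp : Fact p.Prime]

/-- Duality for a module follows from the base case on the preimage of a Sylow subgroup. -/
theorem ClassModule.duality_of_base (D : ClassModule L C p) {N : Subgroup L.G} (hN : L.IsLevel N)
    {M : Type v} [AddCommGroup M] [DistribMulAction L.G M] [Finite M]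
    (hpM : ∀ m : M, p • m = 0) (hMN : ∀ s ∈ N, ∀ m : M, s • m = m) (hM : L.Smooth M)
    (hbase : ∀ (H : Subgroup L.G) (hH : L.IsOpen H), N ≤ H →
      (∀ h ∈ H, ∃ k : ℕ, h ^ p ^ k ∈ N) →
      letI := trivAction (L.sub H).G (ZMod p)
      (D.sub H hH).Base (L.sub H)) :
    D.Duality L M hM := by
  haveI : N.Normal := L.normal N hN
  haveI := L.finiteIndex N hN
  obtain ⟨S⟩ : Nonempty (Sylow p (L.G ⧸ N)) := inferInstance
  let H : Subgroup L.G := S.1.comap (QuotientGroup.mk' N)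
  have hle : N ≤ H := fun n hn => by
    show ((n : L.G) : L.G ⧸ N) ∈ S.1
    rw [(QuotientGroup.eq_one_iff n).mpr hn]
    exact one_mem _
  have hH : L.IsOpen H := ⟨N, hN, hle⟩
  have hpow : ∀ h ∈ H, ∃ k : ℕ, h ^ p ^ k ∈ N := fun h hh => by
    obtain ⟨k, hk⟩ := S.2 ⟨_, hh⟩
    refine ⟨k, (QuotientGroup.eq_one_iff (h ^ p ^ k)).mp ?_⟩
    rw [QuotientGroup.mk_pow]
    exact congrArg Subtype.val hk
  have hidx : H.index.Coprime p := by
    rw [Subgroup.index_comap_of_surjective _ (QuotientGroup.mk'_surjective N)]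
    exact (hp.out.coprime_iff_not_dvd.mpr S.not_dvd_index).symm
  letI := trivAction (L.sub H).G (ZMod p)
  haveI : (N.subgroupOf H).Normal := Subgroup.normal_subgroupOf
  have hMH : (L.sub H).Smooth M := hM.sub
  refine D.toPreClassModule.duality_descent H hH hidx (D.sub H hH) (D.sub_inv H hH) hpM hM hMH
    ((D.sub H hH).duality_of_unipotent (hbase H hH hle hpow) hpM hMH
      ⟨N.subgroupOf H, ⟨N, hN, rfl⟩, fun m s hs => hMN _ hs m, fun g => ?_⟩)
  obtain ⟨g, rfl⟩ := QuotientGroup.mk_surjective g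
  obtain ⟨k, hk⟩ := hpow _ g.2
  refine ⟨k, ?_⟩
  rw [← QuotientGroup.mk_pow, QuotientGroup.eq_one_iff, Subgroup.normalCore_eq_self]
  exact Subgroup.mem_subgroupOf.mpr (by rw [SubgroupClass.coe_pow]; exact hk)

theorem finite_homC_triv [DistribMulAction L.G (ZMod p)]
    (htriv : ∀ (g : L.G) (m : ZMod p), g • m = m)
    (hfin : {a : C | p • a = 0 ∧ ∀ g : L.G, g • a = a}.Finite) :
    Finite (L.HomC (ZMod p) C) := by
  haveI := hfin.to_subtype
  refine Finite.of_injective (fun φ : L.HomC (ZMod p) C =>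
    (⟨φ.1 1, by rw [← map_nsmul, nsmul_eq_mul, ZMod.natCast_self, zero_mul, map_zero],
      fun g => by rw [← φ.2 g, htriv]⟩ : {a : C | p • a = 0 ∧ ∀ g : L.G, g • a = a})) fun φ ψ h => ?_
  refine Subtype.ext (AddMonoidHom.ext fun m => ?_)
  rw [← ZMod.natCast_zmod_val m, ← nsmul_one, map_nsmul, map_nsmul,
    show φ.1 1 = ψ.1 1 from congrArg Subtype.val h]

section Mu

variable {G : Type*} [Group G] [MulDistribMulAction G ℚbˣ]

/-- An element with a `p`-power fixing the roots of unity of order `p` fixes them. -/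
theorem fix_mu_of_pow {h : G} {k : ℕ}
    (hk : ∀ μ : ℚbˣ, μ ^ p = 1 → h ^ p ^ k • μ = μ) {μ : ℚbˣ} (hμ : μ ^ p = 1) : h • μ = μ := by
  have key : ∀ ν : ℚbˣ, ν ^ p = 1 → ∃ a : ZMod p, Additive.ofMul ν = toMu p a := fun ν hν => by
    obtain ⟨a, ha⟩ := exists_toMu p (u := Additive.ofMul ν) (congrArg Additive.ofMul hν)
    exact ⟨a, ha.symm⟩
  set ν : ℚbˣ := (muUnit p).toMul
  have hν : ν ^ p = 1 := congrArg Additive.toMul (nsmul_muUnit p)
  obtain ⟨a, ha⟩ := key (h • ν) (by rw [← smul_pow', hν, smul_one])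
  have hgen : h • ν = ν ^ a.val := by
    rw [← ZMod.natCast_zmod_val a, toMu_natCast] at ha
    exact congrArg Additive.toMul ha
  have hit : ∀ n : ℕ, h ^ n • ν = ν ^ a.val ^ n := fun n => by
    induction n with
    | zero => rw [pow_zero, one_smul, pow_zero, pow_one]
    | succ n ih => rw [pow_succ, mul_smul, hgen, smul_pow', ih, ← pow_mul, ← pow_succ]
  have h1 : toMu p ((a.val ^ p ^ k : ℕ) : ZMod p) = toMu p ((1 : ℕ) : ZMod p) := by
    rw [toMu_natCast, toMu_natCast, one_smul]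
    refine congrArg Additive.ofMul ?_
    show ν ^ a.val ^ p ^ k = ν
    rw [← hit, hk ν hν]
  have h2 := toMu_injective p h1
  rw [Nat.cast_pow, ZMod.pow_card_pow, Nat.cast_one, ZMod.natCast_zmod_val] at h2
  have hfix : h • ν = ν := by rw [hgen, h2, ZMod.val_one, pow_one]
  obtain ⟨b, hb⟩ := key μ hμ
  rw [← ZMod.natCast_zmod_val b, toMu_natCast] at hb
  rw [show μ = ν ^ b.val from congrArg Additive.toMul hb, smul_pow', hfix]

end Mu

/-- The Kummer map. -/
theorem exists_kummer [MulDistribMulAction L.G ℚbˣ] [DistribMulAction L.G (ZMod p)]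
    (htriv : ∀ (g : L.G) (m : ZMod p), g • m = m) (U : Subgroup ℚbˣ)
    (hU : ∀ g : L.G, ∀ x ∈ U, g • x = x) (hμ : ∀ (g : L.G) (μ : ℚbˣ), μ ^ p = 1 → g • μ = μ)
    (hroot : ∀ z : ℚbˣ, z ^ p ∈ U → ∃ N, L.IsLevel N ∧ ∀ s ∈ N, s • z = z)
    (hsat : ∀ z : ℚbˣ, z ^ p ∈ U → (∀ g : L.G, g • z = z) → z ∈ U) :
    ∃ f : U ⧸ powers p U → L.Z1 (ZMod p), Function.Injective f := by
  haveI : IsAlgClosed ℚb := inferInstance
  have hroots : ∀ x : U, ∃ z : ℚbˣ, z ^ p = x := fun x => by
    obtain ⟨z, hz⟩ := IsAlgClosed.exists_pow_nat_eq ((x : ℚbˣ) : ℚb) hp.out.pos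
    refine ⟨Units.mk0 z fun h => (x : ℚbˣ).ne_zero (by rw [← hz, h, zero_pow hp.out.ne_zero]),
      Units.ext hz⟩
  choose z hz using hroots
  have hlog : ∀ (x : U) (g : L.G), ∃ a : ZMod p, toMu p a = Additive.ofMul (g • z x / z x) :=
    fun x g => exists_toMu p (congrArg Additive.ofMul (show (g • z x / z x) ^ p = 1 by
      rw [div_pow, ← smul_pow', hz, hU g _ x.2, div_self']))
  choose a ha using hlog
  have hmem : ∀ x : U, a x ∈ L.Z1 (ZMod p) := fun x => by
    obtain ⟨N, hN, hfix⟩ := hroot (z x) (by rw [hz]; exact x.2)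
    refine ⟨⟨N, hN, fun g s hs => toMu_injective p ?_⟩, fun g h => toMu_injective p ?_⟩
    · rw [ha, ha, mul_smul, hfix s hs]
    · have hh : g • (h • z x / z x) = h • z x / z x := hμ g _ (by
        rw [div_pow, ← smul_pow', hz, hU h _ x.2, div_self'])
      rw [map_add, htriv, ha, ha, ha, ← ofMul_mul, ← hh, smul_div', mul_smul, mul_comm,
        div_mul_div_cancel]
  refine ⟨fun c => ⟨a c.out, hmem c.out⟩, fun c c' h => ?_⟩
  have hw : z c.out / z c'.out ∈ U := by
    refine hsat _ (by rw [div_pow, hz, hz]; exact div_mem c.out.2 c'.out.2) fun g => ?_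
    have e := congrArg Additive.toMul (((ha c.out g).symm.trans
      (congrArg (toMu p) (congrFun (congrArg Subtype.val h) g))).trans (ha c'.out g))
    rw [toMul_ofMul, toMul_ofMul, div_eq_div_iff_mul_eq_mul] at e
    rw [smul_div', div_eq_div_iff_mul_eq_mul, e, mul_comm]
  have key : c.out⁻¹ * c'.out ∈ powers p U := ⟨⟨_, inv_mem hw⟩, Subtype.ext (by
    show ((z c.out / z c'.out)⁻¹) ^ p = ((c.out : ℚbˣ))⁻¹ * (c'.out : ℚbˣ)
    rw [inv_pow, div_pow, hz, hz, inv_div, div_eq_inv_mul])⟩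
  rw [← QuotientGroup.out_eq' c, ← QuotientGroup.out_eq' c']
  exact QuotientGroup.eq.mpr key

end Fermat.Agent.GD
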