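import Fermat.Agent.GD.Bases.Data
import Fermat.Agent.GD.Bases.Descent

/-!
# Local duality
-/

set_option autoImplicit false
set_option linter.unusedSectionVars false
set_option linter.style.haveILetI false

noncomputable section

namespace Fermat.Agent.GD

local notation "ℚb" => AlgebraicClosure ℚ

variable {p : ℕ} [hp : Fact p.Prime] {v : Place}

theorem finite_mu_torsion : {a : Additive ℚbˣ | p • a = 0}.Finite :=
  (Set.finite_range (toMu p)).subset fun _ h => exists_toMu p h

/-- A cocycle becoming trivial in a divisible module without cohomology in degree one is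
trivial. -/
theorem isB2_of_divisible {L : LevelGroup} {C : Type*} [AddCommGroup C] [DistribMulAction L.G C]
    [DistribMulAction L.G (ZMod p)] (j : ZMod p →+ C) (hj : Function.Injective j)
    (hequiv : ∀ (g : L.G) (m : ZMod p), j (g • m) = g • j m)
    (hker : ∀ u : C, p • u = 0 → ∃ a, j a = u) (hdiv : ∀ y : C, ∃ z, p • z = y)
    (h1 : ∀ f ∈ L.Z1 C, f ∈ L.B1 C) (hC : L.Smooth C) {c : L.G × L.G → ZMod p} {b : L.G → C}
    (hb : L.Const₁ b) (hbd : L.d₁ C b = j ∘ c) : L.IsB2 (ZMod p) c := by
  obtain ⟨N, hN, hbN⟩ := hb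
  have hjp : ∀ m, p • j m = 0 := fun m => by
    rw [← map_nsmul, nsmul_eq_mul, ZMod.natCast_self, zero_mul, map_zero]
  have hpb : p • b ∈ L.Z1 C := by
    refine ⟨⟨N, hN, fun g s hs => congrArg (p • ·) (hbN g s hs)⟩, fun g g' => ?_⟩
    have h2 : p • (g • b g' - b (g * g') + b g) = 0 :=
      (congrArg (p • ·) (congrFun hbd (g, g'))).trans (hjp _)
    rw [smul_add, smul_sub, smul_comm p g] at h2
    show p • b (g * g') = p • b g + g • (p • b g')
    linear_combination (norm := abel) -h2
  obtain ⟨y, hy⟩ := h1 _ hpb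
  obtain ⟨z, hz⟩ := hdiv y
  have hval : ∀ g, ∃ a, j a = b g - (g • z - z) := fun g => hker _ (by
    rw [smul_sub, smul_sub, smul_comm p g z, hz]
    exact sub_eq_zero.mpr (congrFun hy g).symm)
  choose a ha using hval
  obtain ⟨N', hN', hzN⟩ := hC z
  refine ⟨a, ⟨N ⊓ N', L.inf N N' hN hN', fun g s hs => hj ?_⟩, funext fun ⟨g, g'⟩ => hj ?_⟩
  · rw [ha, ha, hbN g s hs.1, mul_smul, hzN s hs.2]
  · rw [LevelGroup.d₁_apply, map_add, map_sub, hequiv, ha, ha, ha]
    have h := congrFun hbd (g, g')
    rw [LevelGroup.d₁_apply, Function.comp_apply] at h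
    simp only [smul_sub, mul_smul]
    linear_combination (norm := abel) h

/-- The base case of local duality. -/
theorem base_local (hp2 : p ≠ 2) (D : ClassModule (LD v) (Additive ℚbˣ) p) {H : Subgroup (LD v).G}
    (hH : (LD v).IsOpen H) (hμ : ∀ h ∈ H, ∀ μ : ℚbˣ, μ ^ p = 1 → h • μ = μ)
    [DistribMulAction ((LD v).sub H).G (ZMod p)]
    (htriv : ∀ (g : ((LD v).sub H).G) (m : ZMod p), g • m = m) :
    (D.sub H hH).Base ((LD v).sub H) := by
  classical
  letI : MulDistribMulAction ((LD v).sub H).G ℚbˣ := inferInstanceAs (MulDistribMulAction H ℚbˣ)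
  -- Kummer theory
  obtain ⟨f, hf⟩ := exists_kummer (L := (LD v).sub H) (p := p) htriv (fixedUnits H)
    (fun g x hx => hx _ g.2) (fun g μ => hμ _ g.2 μ)
    (fun z _ => by
      obtain ⟨N, hN, h⟩ := (smooth_LD v).sub (H := H) (Additive.ofMul z)
      exact ⟨N, hN, fun s hs => congrArg Additive.toMul (h s hs)⟩)
    (fun z _ h g hg => h ⟨g, hg⟩)
  let e : fixPts (Additive ℚbˣ) H ⧸ fixPow (LD v) (Additive ℚbˣ) p H →
      fixedUnits H ⧸ powers p (fixedUnits H) := fun c => QuotientGroup.mk
        ⟨c.out.1.toMul, fun h hh => congrArg Additive.toMul (c.out.2 h hh)⟩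
  have he : Function.Injective e := fun c c' h => by
    obtain ⟨⟨w, hw⟩, hwp⟩ := QuotientGroup.eq.mp h
    rw [← QuotientAddGroup.out_eq' c, ← QuotientAddGroup.out_eq' c']
    refine QuotientAddGroup.eq.mpr ⟨⟨Additive.ofMul w, fun h hh =>
      congrArg Additive.ofMul (hw h hh)⟩, Subtype.ext ?_⟩
    exact congrArg Additive.ofMul (congrArg Subtype.val hwp)
  have hfin : Finite (fixPts (Additive ℚbˣ) H ⧸ fixPow (LD v) (Additive ℚbˣ) p H) := by
    cases v with
    | none =>
      haveI : Finite ((LD none).sub H).G := (sub_none_finite H).1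
      exact Finite.of_injective _ (hf.comp he)
    | some q =>
      haveI : Finite (fixedUnits H ⧸ powers p (fixedUnits H)) := Nat.finite_of_card_ne_zero (by
        rw [card_local_powers p q H hH hμ]
        exact pow_ne_zero _ hp.out.ne_zero)
      exact Finite.of_injective _ he
  have hnorm : ∀ (H' : Subgroup (LD v).G) (χ : (LD v).G → ZMod p), IsCyc H H' p χ →
      ∃ a ∈ fixPts (Additive ℚbˣ) H, ∀ y ∈ fixPts (Additive ℚbˣ) H', nm H H' y ≠ a := by
    intro H' χ hc
    have hidx : (H'.subgroupOf H).index = p := hc.relIndex_eq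
    cases v with
    | none =>
      exfalso
      haveI : Finite H := (sub_none_finite H).1
      have h1 := (H'.subgroupOf H).index_dvd_card.trans (sub_none_finite H).2
      rw [hidx] at h1
      exact hp2 ((Nat.prime_dvd_prime_iff_eq hp.out Nat.prime_two).mp h1)
    | some q =>
      by_contra hall
      push_neg at hall
      have hcard := card_local_norm p q H H' hc.isOpen hc.le hc.normal hidx
      haveI := finite_quot (H := H) hc.isOpen
      letI := Fintype.ofFinite (H ⧸ H'.subgroupOf H)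
      refine hp.out.ne_one (hcard.symm.trans ?_)
      refine Subgroup.index_eq_one.mpr (eq_top_iff.mpr fun x _ => Subgroup.subset_closure ?_)
      obtain ⟨y, hy, hxy⟩ := hall (Additive.ofMul (x : ℚbˣ))
        fun h hh => congrArg Additive.ofMul (x.2 h hh)
      refine ⟨y.toMul, fun h hh => congrArg Additive.toMul (hy h hh), ?_⟩
      rw [finprod_eq_prod_of_fintype]
      have h1 := congrArg Additive.toMul hxy
      rw [nm, finsum_eq_sum_of_fintype, toMul_sum, toMul_ofMul] at h1
      exact h1.symm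
  refine ⟨htriv, finite_homC_triv htriv (finite_mu_torsion.subset fun a ha => ha.1),
    D.duality_triv hH htriv hnorm hfin
      fun _ => Nat.card_le_card_of_injective _ (hf.comp he), fun c hc => ?_⟩
  -- detection by the roots of unity
  have hequiv : ∀ (g : ((LD v).sub H).G) (m : ZMod p), toMu p (g • m) = g • toMu p m := fun g m => by
    rw [htriv]
    exact (congrArg Additive.ofMul (hμ _ g.2 (toMu p m).toMul (congrArg Additive.toMul
      (show p • toMu p m = 0 by
        rw [← map_nsmul, nsmul_eq_mul, ZMod.natCast_self, zero_mul, map_zero])))).symm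
  have hz : (toMu p) ∘ (c : ((LD v).sub H).G × ((LD v).sub H).G → ZMod p) ∈
      ((LD v).sub H).Z2 (Additive ℚbˣ) := by
    obtain ⟨⟨N, hN, h1⟩, h2⟩ := c.2
    refine ⟨⟨N, hN, fun g g' s hs s' hs' => congrArg (toMu p) (h1 g g' s hs s' hs')⟩,
      fun g g' j => ?_⟩
    show g • toMu p _ + toMu p _ = toMu p _ + toMu p _
    rw [← hequiv, ← map_add, ← map_add, h2 g g' j]
  have hpμ : p • ((toMu p) ∘ (c : ((LD v).sub H).G × ((LD v).sub H).G → ZMod p)) = 0 :=
    funext fun y => by
      show p • toMu p (c.1 y) = 0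
      rw [← map_nsmul, nsmul_eq_mul, ZMod.natCast_self, zero_mul, map_zero]
  obtain ⟨b, hb, hbd⟩ := (D.sub H hH).inv_inj ⟨_, hz⟩ (by rw [hpμ]; exact LevelGroup.isB2_zero)
    (hc (toMu p) hequiv hz)
  refine isB2_of_divisible (toMu p) (toMu_injective p) hequiv (fun u hu => exists_toMu p hu)
    (fun y => ?_) (local_h1 v H hH) (smooth_LD v).sub hb hbd
  obtain ⟨z, hzr⟩ := IsAlgClosed.exists_pow_nat_eq ((y.toMul : ℚbˣ) : ℚb) hp.out.pos
  exact ⟨Additive.ofMul (Units.mk0 z fun h => (y.toMul).ne_zero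
    (by rw [← hzr, h, zero_pow hp.out.ne_zero])), Additive.toMul.injective (Units.ext hzr)⟩

/-- Local duality. -/
theorem duality_local_eq (hp2 : p ≠ 2) (D : ClassData p) (v : Place) (M : Type) [AddCommGroup M]
    [Finite M] [DistribMulAction (LD v).G M] (hpM : ∀ m : M, p • m = 0) (hM : (LD v).Smooth M) :
    (D.loc v).Duality (LD v) M hM := by
  obtain ⟨N₁, hN₁, h₁⟩ := exists_level_fix hM (Set.finite_univ (α := M))
  obtain ⟨N₂, hN₂, h₂⟩ := exists_level_fix (smooth_LD v) (finite_mu_torsion (p := p))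
  refine (D.loc v).duality_of_base ((LD v).inf _ _ hN₁ hN₂)
    hpM (fun s hs m => h₁ m trivial s hs.1) hM fun H hH _ hpow => ?_
  letI := trivAction ((LD v).sub H).G (ZMod p)
  refine base_local hp2 (D.loc v) hH (fun h hh μ hμ => ?_) fun _ _ => rfl
  obtain ⟨k, hk⟩ := hpow h hh
  exact fix_mu_of_pow (fun ν hν => congrArg Additive.toMul
    (h₂ (Additive.ofMul ν) (congrArg Additive.ofMul hν) _ hk.2)) hμ

end Fermat.Agent.GD
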