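import Fermat.Agent.GD.Setting

/-!
# No cohomology of odd order at the archimedean place
-/

set_option autoImplicit false

noncomputable section

namespace Fermat.Agent.GD

variable {p : ℕ} [Fact p.Prime]

/-- A cocycle of the complex conjugation with values in a module of odd exponent is a
coboundary. -/
theorem h1_archimedean_eq (hp2 : p ≠ 2) (M : Type) [AddCommGroup M]
    [DistribMulAction (LD none).G M] (hp : ∀ m : M, p • m = 0)
    (f : (LD none).G → M) (hf : f ∈ (LD none).Z1 M) : f ∈ (LD none).B1 M := by
  obtain ⟨-, hco⟩ := hf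
  obtain ⟨k, hk⟩ := (Fact.out : p.Prime).odd_of_ne_two hp2
  let c : (LD none).G := ⟨complexConjugation, Subgroup.mem_zpowers _⟩
  have hc2 : c * c = 1 := Subtype.ext ((sq _).symm.trans complexConjugation_sq)
  have h1 : f 1 = 0 := by simpa using hco 1 1
  have hcc : c • f c = - f c := by
    have h := hco c c
    rw [hc2, h1] at h
    exact eq_neg_of_add_eq_zero_right h.symm
  have hmem : ∀ g : (LD none).G, g = 1 ∨ g = c := fun g => by
    obtain ⟨n, hn⟩ := Subgroup.mem_zpowers_iff.mp g.2
    have hn2 : complexConjugation ^ (2 : ℤ) = 1 := complexConjugation_sq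
    rcases Int.even_or_odd' n with ⟨j, rfl | rfl⟩
    · left
      have h2 : complexConjugation ^ (2 * j) = 1 := by rw [zpow_mul, hn2, one_zpow]
      exact Subtype.ext (hn.symm.trans h2)
    · right
      have h2 : complexConjugation ^ (2 * j + 1) = complexConjugation := by
        rw [zpow_add, zpow_mul, hn2, one_zpow, one_mul, zpow_one]
      exact Subtype.ext (hn.symm.trans h2)
  refine ⟨-((k + 1) • f c), funext fun g => ?_⟩
  show g • -((k + 1) • f c) - -((k + 1) • f c) = f g
  rcases hmem g with rfl | rfl
  · rw [one_smul, sub_self, h1]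
  · rw [smul_neg, smul_comm c (k + 1) (f c), hcc, smul_neg, neg_neg, sub_neg_eq_add, ← add_smul,
      show k + 1 + (k + 1) = p + 1 by omega, succ_nsmul, hp, zero_add]

end Fermat.Agent.GD
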