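import Fermat.Agent.GD.Bases.Defs
import Fermat.Agent.GD.Bases.EulerArch
import Fermat.Agent.GD.Bases.Euler.Base
import Fermat.Agent.GD.Bases.Euler.Assembly

/-!
# The Euler characteristics
-/

set_option autoImplicit false
set_option linter.style.haveILetI false
set_option linter.unusedSectionVars false

noncomputable section

namespace Fermat.Agent.GD

open Fermat.Agent.Galois (GQ)

local notation "ℚb" => AlgebraicClosure ℚ

variable {p : ℕ} [hpf : Fact p.Prime]

/-- The global Euler characteristic, from duality. -/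
theorem euler_global_eq (hp2 : p ≠ 2) (D : ClassData p) (T : Finset Nat.Primes)
    (hT : (⟨p, Fact.out⟩ : Nat.Primes) ∈ T) (N : Subgroup (LT T).G) (hN : (LT T).IsLevel N)
    (hμ : FixesMu p N) (hbig : IsBig T N)
    (hdual : ∀ (M : Type) [AddCommGroup M] [Finite M] [DistribMulAction (LT T).G M],
      (∀ m : M, p • m = 0) → (∀ s ∈ N, ∀ m : M, s • m = m) →
        ∀ hM : (LT T).Smooth M, (D.glob T hT).Duality (LT T) M hM)
    (M : Type) [AddCommGroup M] [Finite M] [DistribMulAction (LT T).G M]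
    (hp : ∀ m : M, p • m = 0) (hMN : ∀ s ∈ N, ∀ m : M, s • m = m) :
    Finite ((LT T).H1 M) ∧ Finite ((LT T).HomC M (ClassT T)) ∧
      Nat.card ((LT T).H1 M) =
        Nat.card ((LT T).fixed M) * Nat.card ((LT T).HomC M (ClassT T)) := by
  have h := euler_of_base (D.glob T hT).toPreClassModule hN 0
    (fun M _ _ _ h1 h2 hM => hdual M h1 h2 hM)
    (fun H hle hidx M _ _ _ h1 h2 => by
      obtain ⟨a, b, c⟩ := euler_global_base hp2 T hT H N hN hle hidx hμ hbig M h1 h2
      exact ⟨a, b, by rw [c, Nat.zero_mul, pow_zero, mul_one]⟩) M hp hMN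
  simpa using h

theorem exists_level_mu (v : Place) :
    ∃ N, (LD v).IsLevel N ∧ ∀ μ : ℚbˣ, μ ^ p = 1 → ∀ s ∈ N, s • μ = μ := by
  haveI : NeZero p := ⟨hpf.out.ne_zero⟩
  obtain ⟨ζ, hζ⟩ := HasEnoughRootsOfUnity.exists_primitiveRoot ℚb p
  let z : ℚbˣ := (hζ.isUnit hpf.out.ne_zero).unit
  obtain ⟨N, hN, hfix⟩ := smooth_units_LD v z
  refine ⟨N, hN, fun μ hμ s hs => ?_⟩
  obtain ⟨i, -, hi⟩ := hζ.eq_pow_of_pow_eq_one (show (μ : ℚb) ^ p = 1 by
    rw [← Units.val_pow_eq_pow_val, hμ, Units.val_one])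
  have e : μ = z ^ i := Units.ext (by rw [Units.val_pow_eq_pow_val, IsUnit.unit_spec, hi])
  rw [e, smul_pow', hfix s hs]

/-- The local Euler characteristic at a prime, from duality. -/
theorem euler_local_eq (D : ClassData p) (q : Nat.Primes)
    (hdual : ∀ (M : Type) [AddCommGroup M] [Finite M] [DistribMulAction (LD (some q)).G M],
      (∀ m : M, p • m = 0) → ∀ hM : (LD (some q)).Smooth M,
        (D.loc (some q)).Duality (LD (some q)) M hM)
    (M : Type) [AddCommGroup M] [Finite M] [DistribMulAction (LD (some q)).G M]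
    (hp : ∀ m : M, p • m = 0) (hM : (LD (some q)).Smooth M) :
    Finite ((LD (some q)).H1 M) ∧ Finite ((LD (some q)).HomC M (Additive ℚbˣ)) ∧
      Nat.card ((LD (some q)).H1 M) =
        Nat.card ((LD (some q)).fixed M) * Nat.card ((LD (some q)).HomC M (Additive ℚbˣ)) *
          (if (q : ℕ) = p then Nat.card M else 1) := by
  obtain ⟨N₁, hN₁, h1⟩ := exists_level_mu (p := p) (some q)
  obtain ⟨N₂, hN₂, h2⟩ := hM.exists_level
  have hN := (LD (some q)).inf N₁ N₂ hN₁ hN₂
  have h := euler_of_base (D.loc (some q)).toPreClassModule hN (if (q : ℕ) = p then 1 else 0)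
    (fun M _ _ _ a _ hM => hdual M a hM)
    (fun H hle hidx M _ _ _ a b => by
      obtain ⟨f1, f2, c⟩ := euler_local_base q H (N₁ ⊓ N₂) hN hle hidx
        (fun μ hμ s hs => h1 μ hμ s hs.1) M a b
      refine ⟨f1, f2, ?_⟩
      rw [c]
      simp only [localExp, ite_mul, one_mul, zero_mul]) M hp fun s hs m => h2 s hs.2 m
  refine ⟨h.1, h.2.1, h.2.2.trans ?_⟩
  split_ifs <;> simp

end Fermat.Agent.GD
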