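import Fermat.Agent.GD.Global.ClassFormation

/-!
# Global and local class modules
-/

set_option autoImplicit false

noncomputable section

namespace Fermat.Agent.GD

open Fermat.Agent.Galois (GQ)

local notation "ℚb" => AlgebraicClosure ℚ

variable (p : ℕ) [Fact p.Prime]

/-- Global and local class modules with the sum formula. -/
structure ClassData extends GlobalInv p where
  loc : ∀ v : Place, ClassModule (LD v) (Additive ℚbˣ) p
  decomposition : ∀ (T : Finset Nat.Primes) (hT : (⟨p, Fact.out⟩ : Nat.Primes) ∈ T)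
    (z : GQ × GQ → idele T) (hz : (fun y => toClass T (z y)) ∈ (LT T).Z2 (ClassT T))
    (hzl : ∀ v : Place, locCochain v z ∈ (LD v).Z2 (Additive ℚbˣ)),
    (fun y => Additive.ofMul (z y)) ∈ (LT T).Z2 (Additive (idele T)) →
    (∀ y, ∀ q ∉ T, ∀ g, (z y).1 (some q) g ∈ (placeAt q).unitGroup) →
    (glob T hT).inv ⟨_, hz⟩ = ∑ v ∈ placesOf T, (loc v).inv ⟨_, hzl v⟩

end Fermat.Agent.GD
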